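import Mathlib

/-!
# MOONSHOT S19 (#1637), block (G3-W) "Weierstrass toolbox", file 1: topology-free evaluation

`A` a commutative ring, `I` an ideal, `A` `I`-adically complete.  For `a ∈ I` the polynomial
`X - C a` is distinguished at `I`, so Mathlib's Weierstrass division gives
`A⟦X⟧ ⧸ (X - a) ≃ₐ A[X] ⧸ (X - a) ≃ₐ A`.  The composite

`evalM I a ha : A⟦X⟧ →ₐ[A] A`

is the evaluation of a power series at `a` (no topology is mentioned):

* `evalM_coe`    : on polynomials it is `Polynomial.eval a`;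
* `evalM_X`, `evalM_C`;
* `evalM_eq_zero_iff` (FACTOR THEOREM) : `evalM I a ha f = 0 ↔ (X - C a) ∣ f`;
* `sub_C_evalM_mem` : `f - C (evalM I a ha f) ∈ span {X - C a}`;
* `evalM_sub_sum_mem` : `evalM I a ha f - ∑_{i<n} coeff i f * a ^ i ∈ I ^ n` (it IS the `I`-adic value);
* `map_evalM` (BASE CHANGE) : `φ (evalM I a ha f) = evalM J (φ a) _ (f.map φ)`;
* `X_sub_C_mul_cancel` : `X - C a` is a non-zero-divisor of `A⟦X⟧` (`a ∈ I`, `A` Hausdorff).
-/

set_option autoImplicit false

open PowerSeries

namespace Fermat.Agent.FF2.Weier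

variable {A : Type*} [CommRing A] (I : Ideal A)

/-- `X - C a` is distinguished at `I` for `a ∈ I`. -/
theorem isDistinguishedAt_X_sub_C {a : A} (ha : a ∈ I) :
    (Polynomial.X - Polynomial.C a : Polynomial A).IsDistinguishedAt I where
  mem := by
    intro n hn
    rcases subsingleton_or_nontrivial A with h | h
    · rw [Subsingleton.elim ((Polynomial.X - Polynomial.C a : Polynomial A).coeff n) 0]
      exact I.zero_mem
    · rw [Polynomial.natDegree_X_sub_C] at hn
      obtain rfl : n = 0 := by omega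
      rw [Polynomial.coeff_sub, Polynomial.coeff_X_zero, Polynomial.coeff_C_zero, zero_sub]
      exact I.neg_mem ha
  monic := Polynomial.monic_X_sub_C a

theorem coe_X_sub_C (a : A) :
    ((Polynomial.X - Polynomial.C a : Polynomial A) : A⟦X⟧) = PowerSeries.X - PowerSeries.C a := by
  rw [Polynomial.coe_sub, Polynomial.coe_X, Polynomial.coe_C]

variable [IsAdicComplete I A]

/-- **Evaluation of a power series at `a ∈ I`** (`A` `I`-adically complete), as an `A`-algebra
homomorphism; defined through Weierstrass division by `X - a`. -/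
noncomputable def evalM (a : A) (ha : a ∈ I) : A⟦X⟧ →ₐ[A] A :=
  ((Polynomial.quotientSpanXSubCAlgEquiv a).toAlgHom.comp
    (isDistinguishedAt_X_sub_C I ha).algEquivQuotient.symm.toAlgHom).comp
      (Ideal.Quotient.mkₐ A (Ideal.span {((Polynomial.X - Polynomial.C a : Polynomial A) : A⟦X⟧)}))

variable {I}

theorem evalM_coe {a : A} (ha : a ∈ I) (p : Polynomial A) :
    evalM I a ha (p : A⟦X⟧) = p.eval a := by
  have h1 : (isDistinguishedAt_X_sub_C I ha).algEquivQuotient.symm
      (Ideal.Quotient.mk _ (p : A⟦X⟧)) = Ideal.Quotient.mk _ p := by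
    rw [AlgEquiv.symm_apply_eq]
    rfl
  show Polynomial.quotientSpanXSubCAlgEquiv a
    ((isDistinguishedAt_X_sub_C I ha).algEquivQuotient.symm
      (Ideal.Quotient.mk _ (p : A⟦X⟧))) = _
  rw [h1, Polynomial.quotientSpanXSubCAlgEquiv_mk]

@[simp] theorem evalM_X {a : A} (ha : a ∈ I) : evalM I a ha (PowerSeries.X : A⟦X⟧) = a := by
  rw [← Polynomial.coe_X, evalM_coe, Polynomial.eval_X]

@[simp] theorem evalM_C {a : A} (ha : a ∈ I) (c : A) :
    evalM I a ha (PowerSeries.C c : A⟦X⟧) = c := by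
  rw [← Polynomial.coe_C, evalM_coe, Polynomial.eval_C]

theorem evalM_X_sub_C {a : A} (ha : a ∈ I) :
    evalM I a ha (PowerSeries.X - PowerSeries.C a : A⟦X⟧) = 0 := by
  rw [map_sub, evalM_X, evalM_C, sub_self]

/-- **Factor theorem.** -/
theorem evalM_eq_zero_iff {a : A} (ha : a ∈ I) (f : A⟦X⟧) :
    evalM I a ha f = 0 ↔ (PowerSeries.X - PowerSeries.C a) ∣ f := by
  constructor
  · intro h
    have h1 : Polynomial.quotientSpanXSubCAlgEquiv a
      ((isDistinguishedAt_X_sub_C I ha).algEquivQuotient.symm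
        (Ideal.Quotient.mk _ f)) = 0 := h
    rw [map_eq_zero_iff _ (AlgEquiv.injective _), map_eq_zero_iff _ (AlgEquiv.injective _),
      Ideal.Quotient.eq_zero_iff_mem, Ideal.mem_span_singleton, coe_X_sub_C] at h1
    exact h1
  · rintro ⟨q, rfl⟩
    rw [map_mul, evalM_X_sub_C, zero_mul]

theorem sub_C_evalM_dvd {a : A} (ha : a ∈ I) (f : A⟦X⟧) :
    (PowerSeries.X - PowerSeries.C a) ∣ f - PowerSeries.C (evalM I a ha f) := by
  rw [← evalM_eq_zero_iff ha, map_sub, evalM_C, sub_self]

/-- `X - C a` is a non-zero-divisor of `A⟦X⟧` when `a ∈ I` and `A` is `I`-adically Hausdorff. -/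
theorem X_sub_C_mul_eq_zero {a : A} (ha : a ∈ I) {q : A⟦X⟧}
    (h : (PowerSeries.X - PowerSeries.C a) * q = 0) : q = 0 := by
  have hrec : ∀ n, coeff n q = a * coeff (n + 1) q := by
    intro n
    have h1 := congrArg (coeff (n + 1)) h
    rw [sub_mul, map_sub, coeff_succ_X_mul, coeff_C_mul, map_zero, sub_eq_zero] at h1
    exact h1
  have hpow : ∀ k n, coeff n q = a ^ k * coeff (n + k) q := by
    intro k
    induction k with
    | zero => intro n; rw [pow_zero, one_mul, add_zero]
    | succ k ih =>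
      intro n
      rw [ih n, hrec (n + k), pow_succ, mul_assoc, add_assoc]
  ext n
  rw [map_zero]
  have hmem : ∀ k, coeff n q ∈ I ^ k := fun k => by
    rw [hpow k n]
    exact Ideal.mul_mem_right _ _ (Ideal.pow_mem_pow ha k)
  have hH : IsHausdorff I A := inferInstance
  refine hH.haus' _ fun k => ?_
  rw [SModEq.zero, smul_eq_mul, Ideal.mul_top]
  exact hmem k

theorem X_sub_C_mul_cancel {a : A} (ha : a ∈ I) {q q' : A⟦X⟧}
    (h : (PowerSeries.X - PowerSeries.C a) * q = (PowerSeries.X - PowerSeries.C a) * q') :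
    q = q' := by
  have h1 : (PowerSeries.X - PowerSeries.C a) * (q - q') = 0 := by rw [mul_sub, h, sub_self]
  exact sub_eq_zero.1 (X_sub_C_mul_eq_zero ha h1)

/-- The value is the `I`-adic limit of the partial sums. -/
theorem evalM_sub_sum_mem {a : A} (ha : a ∈ I) (f : A⟦X⟧) (n : ℕ) :
    evalM I a ha f - ∑ i ∈ Finset.range n, coeff i f * a ^ i ∈ I ^ n := by
  have h1 : f = PowerSeries.X ^ n * (PowerSeries.mk fun i => coeff (i + n) f) +
      (f.trunc n : A⟦X⟧) := eq_X_pow_mul_shift_add_trunc n f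
  have h2 : evalM I a ha f = a ^ n * evalM I a ha (PowerSeries.mk fun i => coeff (i + n) f) +
      (f.trunc n).eval a := by
    conv_lhs => rw [h1]
    rw [map_add, map_mul, map_pow, evalM_X, evalM_coe]
  have h3 : (f.trunc n).eval a = ∑ i ∈ Finset.range n, coeff i f * a ^ i := by
    have := eval₂_trunc_eq_sum_range a (RingHom.id A) n f
    simpa only [Polynomial.eval₂_id, RingHom.id_apply] using this
  rw [h2, h3, add_sub_cancel_right]
  exact Ideal.mul_mem_right _ _ (Ideal.pow_mem_pow ha n)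

/-- **Base change**: evaluation commutes with ring homomorphisms. -/
theorem map_evalM {B : Type*} [CommRing B] {J : Ideal B} [IsAdicComplete J B] (φ : A →+* B)
    {a : A} (ha : a ∈ I) (hb : φ a ∈ J) (f : A⟦X⟧) :
    φ (evalM I a ha f) = evalM J (φ a) hb (f.map φ) := by
  obtain ⟨q, hq⟩ := sub_C_evalM_dvd ha f
  have h1 : f = (PowerSeries.X - PowerSeries.C a) * q + PowerSeries.C (evalM I a ha f) := by
    rw [← hq, sub_add_cancel]
  have h2 : f.map φ = (PowerSeries.X - PowerSeries.C (φ a)) * q.map φ +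
      PowerSeries.C (φ (evalM I a ha f)) := by
    conv_lhs => rw [h1]
    rw [map_add, map_mul, map_sub, map_X, map_C, map_C]
  rw [h2, map_add, map_mul, evalM_X_sub_C, zero_mul, zero_add, evalM_C]

/-- Two roots: `evalM` at `a` of `(X - C b) * q` is `(a - b) * evalM a q`. -/
theorem evalM_X_sub_C_mul {a : A} (ha : a ∈ I) (b : A) (q : A⟦X⟧) :
    evalM I a ha ((PowerSeries.X - PowerSeries.C b) * q) = (a - b) * evalM I a ha q := by
  rw [map_mul, map_sub, evalM_X, evalM_C]

/-- A power series with unit constant coefficient has a unit value. -/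
theorem isUnit_evalM_of_isUnit {a : A} (ha : a ∈ I) {u : A⟦X⟧} (hu : IsUnit u) :
    IsUnit (evalM I a ha u) := hu.map (evalM I a ha)

end Fermat.Agent.FF2.Weier
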