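import Mathlib
import Fermat.Agent.FF2.Weier.Eval

/-!
# MOONSHOT S19 (#1637), block (G3-W) "Weierstrass toolbox", file 2: divided differences

`A` `I`-adically complete, `a b ∈ I`.

* `dq I a ha f` : the quotient of `f - f(a)` by `X - a`; `dq_spec`, `dq_unique`, `A`-linear (`dqₗ`);
* `dd I a b ha hb f := evalM b (dq a f)` : the divided difference `f[a,b]`, `A`-linear (`ddₗ`);
* `evalM_eq_add_mul_dd` (Newton) : `f(b) = f(a) + (b - a) * f[a,b]`;
* `eq_mul_add_newton` : `f = (X-a)(X-b) * q + C f[a,b] * (X - C a) + C f(a)`;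
* `evalM_eq_zero_and_dd_eq_zero_iff` : `f(a) = 0 ∧ f[a,b] = 0 ↔ (X - C a) * (X - C b) ∣ f`
  (the two `A`-linear conditions defining `N1` in (G3));
* base change: `map_dq`, `map_dd`.
-/

set_option autoImplicit false

open PowerSeries

namespace Fermat.Agent.FF2.Weier

variable {A : Type*} [CommRing A] (I : Ideal A) [IsAdicComplete I A]

/-- The quotient of `f - f(a)` by `X - a`. -/
noncomputable def dq (a : A) (ha : a ∈ I) (f : A⟦X⟧) : A⟦X⟧ :=
  Classical.choose (sub_C_evalM_dvd ha f)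

variable {I}

theorem dq_spec {a : A} (ha : a ∈ I) (f : A⟦X⟧) :
    f = (PowerSeries.X - PowerSeries.C a) * dq I a ha f + PowerSeries.C (evalM I a ha f) := by
  have h := Classical.choose_spec (sub_C_evalM_dvd ha f)
  show f = (PowerSeries.X - PowerSeries.C a) * Classical.choose (sub_C_evalM_dvd ha f) + _
  rw [← h, sub_add_cancel]

theorem dq_unique {a : A} (ha : a ∈ I) {f q : A⟦X⟧} {c : A}
    (h : f = (PowerSeries.X - PowerSeries.C a) * q + PowerSeries.C c) :
    q = dq I a ha f ∧ c = evalM I a ha f := by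
  have hc : c = evalM I a ha f := by
    rw [h, map_add, map_mul, evalM_X_sub_C, zero_mul, zero_add, evalM_C]
  refine ⟨?_, hc⟩
  have h2 := dq_spec ha f
  rw [← hc] at h2
  exact X_sub_C_mul_cancel ha (add_right_cancel (h.symm.trans h2))

theorem dq_add {a : A} (ha : a ∈ I) (f g : A⟦X⟧) :
    dq I a ha (f + g) = dq I a ha f + dq I a ha g := by
  refine ((dq_unique ha (c := evalM I a ha f + evalM I a ha g) ?_).1).symm
  conv_lhs => rw [dq_spec ha f, dq_spec ha g]
  rw [map_add]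
  ring

theorem dq_smul {a : A} (ha : a ∈ I) (c : A) (f : A⟦X⟧) :
    dq I a ha (c • f) = c • dq I a ha f := by
  refine ((dq_unique ha (c := c * evalM I a ha f) ?_).1).symm
  conv_lhs => rw [dq_spec ha f]
  rw [smul_add, mul_smul_comm, map_mul, ← smul_eq_C_mul]

/-- `dq` as an `A`-linear map. -/
noncomputable def dqₗ {a : A} (ha : a ∈ I) : A⟦X⟧ →ₗ[A] A⟦X⟧ where
  toFun := dq I a ha
  map_add' := dq_add ha
  map_smul' := dq_smul ha

@[simp] theorem dqₗ_apply {a : A} (ha : a ∈ I) (f : A⟦X⟧) : dqₗ ha f = dq I a ha f := rfl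

theorem dq_X_sub_C_mul {a : A} (ha : a ∈ I) (q : A⟦X⟧) :
    dq I a ha ((PowerSeries.X - PowerSeries.C a) * q) = q := by
  refine ((dq_unique ha (c := 0) ?_).1).symm
  rw [map_zero, add_zero]

variable (I) in
/-- **The divided difference** `f[a,b]`. -/
noncomputable def dd (a b : A) (ha : a ∈ I) (hb : b ∈ I) (f : A⟦X⟧) : A :=
  evalM I b hb (dq I a ha f)

/-- `dd` as an `A`-linear map. -/
noncomputable def ddₗ {a b : A} (ha : a ∈ I) (hb : b ∈ I) : A⟦X⟧ →ₗ[A] A :=
  (evalM I b hb).toLinearMap.comp (dqₗ ha)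

@[simp] theorem ddₗ_apply {a b : A} (ha : a ∈ I) (hb : b ∈ I) (f : A⟦X⟧) :
    ddₗ ha hb f = dd I a b ha hb f := rfl

/-- **Newton's formula** `f(b) = f(a) + (b - a) * f[a,b]`. -/
theorem evalM_eq_add_mul_dd {a b : A} (ha : a ∈ I) (hb : b ∈ I) (f : A⟦X⟧) :
    evalM I b hb f = evalM I a ha f + (b - a) * dd I a b ha hb f := by
  conv_lhs => rw [dq_spec ha f]
  rw [map_add, evalM_X_sub_C_mul, evalM_C, dd, add_comm]

/-- Division with remainder by `(X - a)(X - b)` in Newton form. -/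
theorem eq_mul_add_newton {a b : A} (ha : a ∈ I) (hb : b ∈ I) (f : A⟦X⟧) :
    f = (PowerSeries.X - PowerSeries.C a) * (PowerSeries.X - PowerSeries.C b) *
          dq I b hb (dq I a ha f) +
        PowerSeries.C (dd I a b ha hb f) * (PowerSeries.X - PowerSeries.C a) +
        PowerSeries.C (evalM I a ha f) := by
  conv_lhs => rw [dq_spec ha f, dq_spec hb (dq I a ha f)]
  rw [dd]
  ring

/-- **The two linear conditions of (G3)**: `f(a) = 0` and `f[a,b] = 0` iff `(X-a)(X-b) ∣ f`. -/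
theorem evalM_eq_zero_and_dd_eq_zero_iff {a b : A} (ha : a ∈ I) (hb : b ∈ I) (f : A⟦X⟧) :
    (evalM I a ha f = 0 ∧ dd I a b ha hb f = 0) ↔
      (PowerSeries.X - PowerSeries.C a) * (PowerSeries.X - PowerSeries.C b) ∣ f := by
  constructor
  · rintro ⟨h1, h2⟩
    refine ⟨dq I b hb (dq I a ha f), ?_⟩
    conv_lhs => rw [eq_mul_add_newton ha hb f, h1, h2]
    rw [map_zero, zero_mul, add_zero, add_zero]
  · rintro ⟨q, rfl⟩
    have h1 : evalM I a ha ((PowerSeries.X - PowerSeries.C a) *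
        (PowerSeries.X - PowerSeries.C b) * q) = 0 := by
      rw [mul_assoc, map_mul, evalM_X_sub_C, zero_mul]
    refine ⟨h1, ?_⟩
    rw [dd, mul_assoc, dq_X_sub_C_mul, map_mul, evalM_X_sub_C, zero_mul]

/-- `f[a,b]` of a multiple of `(X-a)`: `((X - a) q)[a,b] = q(b)`. -/
theorem dd_X_sub_C_mul {a b : A} (ha : a ∈ I) (hb : b ∈ I) (q : A⟦X⟧) :
    dd I a b ha hb ((PowerSeries.X - PowerSeries.C a) * q) = evalM I b hb q := by
  rw [dd, dq_X_sub_C_mul]

section BaseChange

variable {B : Type*} [CommRing B] {J : Ideal B} [IsAdicComplete J B] (φ : A →+* B)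

theorem map_dq {a : A} (ha : a ∈ I) (hb : φ a ∈ J) (f : A⟦X⟧) :
    (dq I a ha f).map φ = dq J (φ a) hb (f.map φ) := by
  refine (dq_unique hb (c := φ (evalM I a ha f)) ?_).1
  conv_lhs => rw [dq_spec ha f]
  rw [map_add, map_mul, map_sub, map_X, map_C, map_C]

theorem map_dd {a b : A} (ha : a ∈ I) (hb : b ∈ I) (ha' : φ a ∈ J) (hb' : φ b ∈ J) (f : A⟦X⟧) :
    φ (dd I a b ha hb f) = dd J (φ a) (φ b) ha' hb' (f.map φ) := by
  rw [dd, dd, map_evalM φ hb hb', map_dq φ ha ha']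

end BaseChange

end Fermat.Agent.FF2.Weier
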