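import Mathlib
import Fermat.Agent.FF2.Weier.DivDiff

/-!
# MOONSHOT S19 (#1637), block (G3-W) "Weierstrass toolbox", file 3: root extraction

`A` a local ring, complete for its maximal ideal `𝔪`.

* `exists_root_of_isUnit_coeff_one` (degree-1 Weierstrass = Hensel): `g ∈ A⟦X⟧` with
  `coeff 0 g ∈ 𝔪`, `IsUnit (coeff 1 g)` factors as `g = (X - C Z) * u`, `Z ∈ 𝔪`, `u` a unit;
* `root_unique` : the root of such a `g` in `𝔪` is unique;
* `exists_factor_of_double_zero` (the shape of (G3)): `coeff 0 g = 0`, `coeff 1 g ∈ 𝔪`,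
  `IsUnit (coeff 2 g)`  ⇒  `g = u * X * (X - C Z)` with `Z ∈ 𝔪`, `u` a unit, `Z` unique;
* `hroot`/`hroot_spec`/`map_hroot` : the chosen root and its compatibility with local base change.
-/

set_option autoImplicit false

open PowerSeries IsLocalRing

namespace Fermat.Agent.FF2.Weier

variable {A : Type*} [CommRing A] [IsLocalRing A] [IsAdicComplete (maximalIdeal A) A]

/-- **Degree-one Weierstrass preparation.** -/
theorem exists_root_of_isUnit_coeff_one (g : A⟦X⟧) (h0 : coeff 0 g ∈ maximalIdeal A)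
    (h1 : IsUnit (coeff 1 g)) :
    ∃ Z ∈ maximalIdeal A, ∃ u : A⟦X⟧, IsUnit u ∧ g = (PowerSeries.X - PowerSeries.C Z) * u := by
  have hc1 : coeff 1 (g.map (residue A)) ≠ 0 := by
    rw [coeff_map, Ne, residue_eq_zero_iff]
    exact fun h => (mem_maximalIdeal _).1 h h1
  have hg : g.map (residue A) ≠ 0 := fun h => hc1 (by rw [h, map_zero])
  have hord : (g.map (residue A)).order = 1 := by
    have := (order_eq_nat (φ := g.map (residue A)) (n := 1)).2 ⟨hc1, fun i hi => by
      obtain rfl : i = 0 := by omega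
      rw [coeff_map, residue_eq_zero_iff]
      exact h0⟩
    exact_mod_cast this
  obtain ⟨f, h, H⟩ := exists_isWeierstrassFactorization hg
  have hdeg : f.natDegree = 1 := by
    rw [H.natDegree_eq_toNat_order_map, hord]
    rfl
  have hf : f = Polynomial.X + Polynomial.C (f.coeff 0) := by
    have h2 := Polynomial.eq_X_add_C_of_natDegree_le_one (p := f) hdeg.le
    have h3 : f.coeff 1 = 1 := by
      have := H.isDistinguishedAt.monic
      rwa [Polynomial.Monic, Polynomial.leadingCoeff, hdeg] at this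
    rw [h3, Polynomial.C_1, one_mul] at h2
    exact h2
  have hmem : f.coeff 0 ∈ maximalIdeal A := H.isDistinguishedAt.mem (by omega)
  refine ⟨-f.coeff 0, (maximalIdeal A).neg_mem hmem, h, H.isUnit, ?_⟩
  have h4 : (f : A⟦X⟧) = PowerSeries.X - PowerSeries.C (-f.coeff 0) := by
    conv_lhs => rw [hf]
    rw [Polynomial.coe_add, Polynomial.coe_X, Polynomial.coe_C, map_neg, sub_neg_eq_add]
  rw [← h4]
  exact H.eq_mul

/-- Uniqueness of the root in `𝔪` of a power series with a simple zero mod `𝔪`. -/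
theorem root_unique {g u : A⟦X⟧} {Z Z' : A} (hZ' : Z' ∈ maximalIdeal A)
    (hu : IsUnit u) (hg : g = (PowerSeries.X - PowerSeries.C Z) * u)
    (hroot : evalM (maximalIdeal A) Z' hZ' g = 0) : Z' = Z := by
  rw [hg, evalM_X_sub_C_mul] at hroot
  have h1 := isUnit_evalM_of_isUnit hZ' hu
  exact sub_eq_zero.1 ((h1.mul_left_eq_zero).1 hroot)

/-- The root of `g` in `𝔪` (`coeff 0 g ∈ 𝔪`, `coeff 1 g` a unit). -/
noncomputable def hroot (g : A⟦X⟧) (h0 : coeff 0 g ∈ maximalIdeal A) (h1 : IsUnit (coeff 1 g)) : A :=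
  Classical.choose (exists_root_of_isUnit_coeff_one g h0 h1)

theorem hroot_mem (g : A⟦X⟧) (h0 : coeff 0 g ∈ maximalIdeal A) (h1 : IsUnit (coeff 1 g)) :
    hroot g h0 h1 ∈ maximalIdeal A :=
  (Classical.choose_spec (exists_root_of_isUnit_coeff_one g h0 h1)).1

theorem hroot_spec (g : A⟦X⟧) (h0 : coeff 0 g ∈ maximalIdeal A) (h1 : IsUnit (coeff 1 g)) :
    ∃ u : A⟦X⟧, IsUnit u ∧ g = (PowerSeries.X - PowerSeries.C (hroot g h0 h1)) * u :=
  (Classical.choose_spec (exists_root_of_isUnit_coeff_one g h0 h1)).2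

theorem evalM_hroot (g : A⟦X⟧) (h0 : coeff 0 g ∈ maximalIdeal A) (h1 : IsUnit (coeff 1 g)) :
    evalM (maximalIdeal A) (hroot g h0 h1) (hroot_mem g h0 h1) g = 0 := by
  obtain ⟨u, -, hu⟩ := hroot_spec g h0 h1
  rw [evalM_eq_zero_iff]
  exact ⟨u, hu⟩

/-- The root is the unique zero of `g` in `𝔪`. -/
theorem eq_hroot_of_evalM_eq_zero (g : A⟦X⟧) (h0 : coeff 0 g ∈ maximalIdeal A)
    (h1 : IsUnit (coeff 1 g)) {Z' : A} (hZ' : Z' ∈ maximalIdeal A)
    (h : evalM (maximalIdeal A) Z' hZ' g = 0) : Z' = hroot g h0 h1 := by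
  obtain ⟨u, hu, hg⟩ := hroot_spec g h0 h1
  exact root_unique hZ' hu hg h

/-- **Base change of the root** along a local homomorphism of complete local rings. -/
theorem map_hroot {B : Type*} [CommRing B] [IsLocalRing B] [IsAdicComplete (maximalIdeal B) B]
    (φ : A →+* B) [IsLocalHom φ] (g : A⟦X⟧) (h0 : coeff 0 g ∈ maximalIdeal A)
    (h1 : IsUnit (coeff 1 g)) (h0' : coeff 0 (g.map φ) ∈ maximalIdeal B)
    (h1' : IsUnit (coeff 1 (g.map φ))) :
    φ (hroot g h0 h1) = hroot (g.map φ) h0' h1' := by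
  have hm : φ (hroot g h0 h1) ∈ maximalIdeal B :=
    ((mem_maximalIdeal _).2 (fun h => (mem_maximalIdeal _).1 (hroot_mem g h0 h1)
      (isUnit_of_map_unit φ _ h)))
  refine eq_hroot_of_evalM_eq_zero (g.map φ) h0' h1' hm ?_
  rw [← map_evalM φ (hroot_mem g h0 h1) hm, evalM_hroot, map_zero]

/-- **The shape of (G3)**: a power series with constant coefficient `0`, linear coefficient in `𝔪`
and invertible quadratic coefficient is `unit * X * (X - Z)` with `Z ∈ 𝔪`. -/
theorem exists_factor_of_double_zero (g : A⟦X⟧) (h0 : coeff 0 g = 0)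
    (h1 : coeff 1 g ∈ maximalIdeal A) (h2 : IsUnit (coeff 2 g)) :
    ∃ Z ∈ maximalIdeal A, ∃ u : A⟦X⟧, IsUnit u ∧
      g = u * PowerSeries.X * (PowerSeries.X - PowerSeries.C Z) := by
  -- `g = X * g₁`
  set g₁ : A⟦X⟧ := PowerSeries.mk fun i => coeff (i + 1) g with hg₁
  have hg : g = PowerSeries.X * g₁ := by
    ext i
    rcases i with _ | i
    · rw [h0, coeff_zero_eq_constantCoeff, map_mul, constantCoeff_X, zero_mul]
    · rw [coeff_succ_X_mul, hg₁, coeff_mk]
  have h0' : coeff 0 g₁ ∈ maximalIdeal A := by rw [hg₁, coeff_mk]; exact h1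
  have h1' : IsUnit (coeff 1 g₁) := by rw [hg₁, coeff_mk]; exact h2
  obtain ⟨Z, hZ, u, hu, hgu⟩ := exists_root_of_isUnit_coeff_one g₁ h0' h1'
  refine ⟨Z, hZ, u, hu, ?_⟩
  rw [hg, hgu]
  ring

/-- The second root `Z` of (G3) as a function of `g`. -/
noncomputable def secondRoot (g : A⟦X⟧) (h1 : coeff 1 g ∈ maximalIdeal A)
    (h2 : IsUnit (coeff 2 g)) : A :=
  hroot (PowerSeries.mk fun i => coeff (i + 1) g) (by rw [coeff_mk]; exact h1)
    (by rw [coeff_mk]; exact h2)

theorem secondRoot_mem (g : A⟦X⟧) (h1 : coeff 1 g ∈ maximalIdeal A) (h2 : IsUnit (coeff 2 g)) :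
    secondRoot g h1 h2 ∈ maximalIdeal A := hroot_mem _ _ _

theorem secondRoot_spec (g : A⟦X⟧) (h0 : coeff 0 g = 0) (h1 : coeff 1 g ∈ maximalIdeal A)
    (h2 : IsUnit (coeff 2 g)) :
    ∃ u : A⟦X⟧, IsUnit u ∧
      g = u * PowerSeries.X * (PowerSeries.X - PowerSeries.C (secondRoot g h1 h2)) := by
  have hg : g = PowerSeries.X * (PowerSeries.mk fun i => coeff (i + 1) g) := by
    ext i
    rcases i with _ | i
    · rw [h0, coeff_zero_eq_constantCoeff, map_mul, constantCoeff_X, zero_mul]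
    · rw [coeff_succ_X_mul, coeff_mk]
  obtain ⟨u, hu, hgu⟩ := hroot_spec (PowerSeries.mk fun i => coeff (i + 1) g)
    (by rw [coeff_mk]; exact h1) (by rw [coeff_mk]; exact h2)
  refine ⟨u, hu, ?_⟩
  conv_lhs => rw [hg, hgu]
  rw [secondRoot]
  ring

/-- Base change of the second root. -/
theorem map_secondRoot {B : Type*} [CommRing B] [IsLocalRing B]
    [IsAdicComplete (maximalIdeal B) B] (φ : A →+* B) [IsLocalHom φ] (g : A⟦X⟧)
    (h1 : coeff 1 g ∈ maximalIdeal A) (h2 : IsUnit (coeff 2 g))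
    (h1' : coeff 1 (g.map φ) ∈ maximalIdeal B) (h2' : IsUnit (coeff 2 (g.map φ))) :
    φ (secondRoot g h1 h2) = secondRoot (g.map φ) h1' h2' := by
  have hmap : (PowerSeries.mk fun i => coeff (i + 1) g).map φ =
      PowerSeries.mk fun i => coeff (i + 1) (g.map φ) := by
    ext i
    rw [coeff_map, coeff_mk, coeff_mk, coeff_map]
  rw [secondRoot, secondRoot]
  have := map_hroot φ (PowerSeries.mk fun i => coeff (i + 1) g)
    (by rw [coeff_mk]; exact h1) (by rw [coeff_mk]; exact h2)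
    (by rw [hmap, coeff_mk]; exact h1') (by rw [hmap, coeff_mk]; exact h2')
  rw [this]
  congr 1

end Fermat.Agent.FF2.Weier
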